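import Fermat.Agent.S30.H330.AdicDefs
import Fermat.Agent.S29.H222.ESKAdapterPGI
import Fermat.Agent.S18.H694.CoreFamilyOfNodes

/-!
# S30 / helper694 — input (T) of the adic module layer from the S18 hub

`Fermat.Agent.S30.H330.TorsionRelations N p` (inertia at `ℓ ∤ N p` acts trivially on
`J₀(N)(ℚ̄)[p^∞]`; every Frobenius at `ℓ` satisfies `σ² - T_ℓ σ + ℓ = 0` there) is the input (T) of
`Fermat.Agent.S30.H990.result_of_inputs`.  On main it was available only from the interfaces of
row S37 (`H330/AdicTorsionRel.lean`, `H450/RawESPow.lean`: `RedData`, `PlaceRed`, `WeakRedData`).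

Here: (T) from the S18 hub alone, through helper222's Kummer route ESK
(`S29.H222.esStatement_of_core`; PGI, HI, NORM-ID are discharged on main) and the bridge
prime `m` ⟹ all `m` (`S18.H694.coreFamily_of_prime`; the moduli needed here are `p ^ n`):

* `torsionRelations_of_coreFamily` : from `S29.H222.CoreFamily` (hub for all `m` prime to `ℓ`);
* `torsionRelations_of_corePrime`  : from the hub at PRIME moduli (what row S18 proves);
* `torsionRelations_of_nodes`      : from the two open nodes `node_mod`, `node_alg` of the S18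
  skeleton, in the exact shape of the hypothesis `hT` of `S30.H990.result_of_inputs`.
-/

set_option autoImplicit false

noncomputable section

namespace Fermat.Agent.S30.H694

open ModularCurve AlgebraicCurve
open Fermat.Agent.S18 (Qb CoreStatement)

/-- (T) from the S18 hub family. -/
theorem torsionRelations_of_coreFamily (hcore : Fermat.Agent.S29.H222.CoreFamily)
    (N : ℕ) [NeZero N] (p : ℕ) : Fermat.Agent.S30.H330.TorsionRelations N p :=
  fun ℓ hℓ h A hA => Fermat.Agent.S29.H222.esStatement_of_core hcore N p ℓ hℓ h A hA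

/-- (T) from the S18 hub at PRIME moduli. -/
theorem torsionRelations_of_corePrime
    (hcore : ∀ (N : ℕ) [NeZero N] (ℓ : ℕ), ℓ.Prime → ¬ ℓ ∣ N → ∀ q : ℕ, q.Prime → ¬ ℓ ∣ q →
      ∀ A : ValuationSubring Qb, A.LiesOverPrime ℓ → CoreStatement N A q)
    (N : ℕ) [NeZero N] (p : ℕ) : Fermat.Agent.S30.H330.TorsionRelations N p :=
  torsionRelations_of_coreFamily (Fermat.Agent.S18.H694.coreFamily_of_prime hcore) N p

/-- **(T) from the two open nodes of the S18 skeleton**, in the exact shape of the hypothesis
`hT` of `Fermat.Agent.S30.H990.result_of_inputs`. -/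
theorem torsionRelations_of_nodes
    (node_mod : ∀ (M : ℕ) [NeZero M] {ℓ : ℕ} [Fact ℓ.Prime], ¬ ℓ ∣ M →
      ∀ A : ValuationSubring Qb, A.LiesOverPrime ℓ →
        Fermat.Agent.S18.Mod.GoodModelStatement M ℓ A)
    (node_alg : ∀ M : ℕ, Fermat.Agent.S18.Mod.AlgStatement M) :
    ∀ (N : ℕ) [NeZero N] (p : ℕ) [Fact p.Prime], Fermat.Agent.S30.H330.TorsionRelations N p :=
  fun N _ p _ =>
    torsionRelations_of_coreFamily
      (Fermat.Agent.S18.H694.coreFamily_of_nodes node_mod node_alg) N p

end Fermat.Agent.S30.H694
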